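/-
S24 helper (helper52): places of a function field from additive discrete valuations.

* `IsAddVal o` : `o : F → ℤ` is an additive valuation on the field `F` (value at `0` irrelevant).
* `IsAddVal.valuationSubring`, `IsAddVal.place` : the valuation subring `{f | f = 0 ∨ 0 ≤ o f}` is a
  `Place K F` as soon as `o` is nonnegative on `K` and nontrivial.
* `Place.exists_ord_eq_of_mem_iff` : if a place `v` has the same valuation ring as `o`, then
  `o f = e * v.ord f` for a fixed `e > 0`.
* `Place.mem_iff_of_le` : a place is a maximal proper valuation subring ("a DVR has no proper overrings").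
* `isAddVal_order` : `f ↦ (φ f).order` is an additive valuation for a ring hom into Laurent series.
-/
import Mathlib
import Fermat.Prelude.Def_AlgebraicCurve_DivisorClassGroup

set_option autoImplicit false

namespace Fermat.Agent.S24.H52

open AlgebraicCurve

variable {K F : Type*} [Field K] [Field F] [Algebra K F]

/-- An additive (ℤ-valued) valuation on a field; the value at `0` is irrelevant. -/
structure IsAddVal (o : F → ℤ) : Prop where
  map_one : o 1 = 0
  map_mul : ∀ {f g : F}, f ≠ 0 → g ≠ 0 → o (f * g) = o f + o g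
  map_add : ∀ {f g : F}, f ≠ 0 → g ≠ 0 → f + g ≠ 0 → min (o f) (o g) ≤ o (f + g)

namespace IsAddVal

variable {o : F → ℤ} (ho : IsAddVal o)
include ho

theorem map_inv {f : F} (hf : f ≠ 0) : o f⁻¹ = -o f := by
  have h := ho.map_mul hf (inv_ne_zero hf)
  rw [mul_inv_cancel₀ hf, ho.map_one] at h
  omega

theorem map_neg_one : o (-1) = 0 := by
  have h := ho.map_mul (f := (-1 : F)) (g := -1) (neg_ne_zero.mpr one_ne_zero)
    (neg_ne_zero.mpr one_ne_zero)
  rw [neg_one_mul, neg_neg, ho.map_one] at h
  omega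

theorem map_neg (f : F) (hf : f ≠ 0) : o (-f) = o f := by
  have h := ho.map_mul (f := (-1 : F)) (g := f) (neg_ne_zero.mpr one_ne_zero) hf
  rw [neg_one_mul, ho.map_neg_one, zero_add] at h
  exact h

theorem map_pow {f : F} (hf : f ≠ 0) (n : ℕ) : o (f ^ n) = n * o f := by
  induction n with
  | zero => simp [ho.map_one]
  | succ n ih =>
    rw [pow_succ, ho.map_mul (pow_ne_zero n hf) hf, ih]
    push_cast; ring

theorem map_zpow {f : F} (hf : f ≠ 0) (n : ℤ) : o (f ^ n) = n * o f := by
  rcases n with n | n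
  · simpa using ho.map_pow hf n
  · rw [zpow_negSucc, ho.map_inv (pow_ne_zero _ hf), ho.map_pow hf]
    push_cast [Int.negSucc_eq]; ring

theorem map_div {f g : F} (hf : f ≠ 0) (hg : g ≠ 0) : o (f / g) = o f - o g := by
  rw [div_eq_mul_inv, ho.map_mul hf (inv_ne_zero hg), ho.map_inv hg]; ring

/-- The valuation subring `{f | f = 0 ∨ 0 ≤ o f}` of an additive valuation. -/
def valuationSubring : ValuationSubring F where
  carrier := {f | f = 0 ∨ 0 ≤ o f}
  mul_mem' := by
    rintro a b (rfl | ha) (rfl | hb)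
    · left; simp
    · left; simp
    · left; simp
    · by_cases ha0 : a = 0
      · left; simp [ha0]
      by_cases hb0 : b = 0
      · left; simp [hb0]
      right; rw [ho.map_mul ha0 hb0]; omega
  one_mem' := Or.inr (by rw [ho.map_one])
  add_mem' := by
    intro a b ha hb
    by_cases ha0 : a = 0
    · simpa [ha0] using hb
    by_cases hb0 : b = 0
    · simpa [hb0] using ha
    by_cases hab : a + b = 0
    · exact Or.inl hab
    right
    have := ho.map_add ha0 hb0 hab
    have ha' := ha.resolve_left ha0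
    have hb' := hb.resolve_left hb0
    exact le_trans (le_min ha' hb') this
  zero_mem' := Or.inl rfl
  neg_mem' := by
    intro a ha
    by_cases ha0 : a = 0
    · left; simp [ha0]
    right
    show 0 ≤ o (-a)
    rw [ho.map_neg a ha0]; exact ha.resolve_left ha0
  mem_or_inv_mem' := by
    intro a
    by_cases ha0 : a = 0
    · exact Or.inl (Or.inl ha0)
    rcases le_total 0 (o a) with h | h
    · exact Or.inl (Or.inr h)
    · refine Or.inr (Or.inr ?_)
      rw [ho.map_inv ha0]; omega

theorem mem_valuationSubring_iff {f : F} : f ∈ ho.valuationSubring ↔ f = 0 ∨ 0 ≤ o f := Iff.rfl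

theorem mem_valuationSubring_iff_of_ne {f : F} (hf : f ≠ 0) :
    f ∈ ho.valuationSubring ↔ 0 ≤ o f :=
  ⟨fun h => h.resolve_left hf, Or.inr⟩

/-- The valuation ring of a ℤ-valued valuation is a principal ideal ring. -/
theorem isPrincipalIdealRing_valuationSubring : IsPrincipalIdealRing ho.valuationSubring := by
  classical
  refine ⟨fun I => ?_⟩
  by_cases hI : I = ⊥
  · exact ⟨0, by simp [hI]⟩
  have hex : ∃ a ∈ I, a ≠ 0 := by
    by_contra hcon
    push Not at hcon
    exact hI ((Submodule.eq_bot_iff I).mpr hcon)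
  -- the set of valuations of nonzero elements of `I`
  let S : Set ℕ := {n | ∃ a ∈ I, a ≠ 0 ∧ o (a : F) = n}
  have hS : S.Nonempty := by
    obtain ⟨a, haI, ha0⟩ := hex
    have ha0' : (a : F) ≠ 0 := by simpa using ha0
    have hnn : 0 ≤ o (a : F) := a.2.resolve_left ha0'
    exact ⟨(o (a : F)).toNat, a, haI, ha0, (Int.toNat_of_nonneg hnn).symm⟩
  obtain ⟨a₀, ha₀I, ha₀0, ha₀⟩ := Nat.sInf_mem hS
  have ha₀0' : (a₀ : F) ≠ 0 := by simpa using ha₀0
  refine ⟨a₀, le_antisymm ?_ ?_⟩
  · intro a haI
    rw [Ideal.submodule_span_eq, Ideal.mem_span_singleton']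
    by_cases ha0 : a = 0
    · exact ⟨0, by simp [ha0]⟩
    have ha0' : (a : F) ≠ 0 := by simpa using ha0
    have hnn : 0 ≤ o (a : F) := a.2.resolve_left ha0'
    have hle : sInf S ≤ (o (a : F)).toNat :=
      Nat.sInf_le ⟨a, haI, ha0, (Int.toNat_of_nonneg hnn).symm⟩
    have hmem : (a : F) / (a₀ : F) ∈ ho.valuationSubring := by
      right
      rw [ho.map_div ha0' ha₀0', ha₀]
      omega
    refine ⟨⟨_, hmem⟩, ?_⟩
    ext
    show (a : F) / (a₀ : F) * (a₀ : F) = a
    field_simp
  · rw [Ideal.submodule_span_eq, Ideal.span_le, Set.singleton_subset_iff]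
    exact ha₀I

/-- The place attached to a nontrivial additive valuation which is nonnegative on `K`. -/
def place (hK : ∀ a : K, algebraMap K F a ≠ 0 → 0 ≤ o (algebraMap K F a))
    (hneg : ∃ f : F, f ≠ 0 ∧ o f < 0) : Place K F where
  toValuationSubring := ho.valuationSubring
  algebraMap_mem' := fun a => by
    by_cases h : algebraMap K F a = 0
    · exact Or.inl h
    · exact Or.inr (hK a h)
  ne_top' := by
    obtain ⟨f, hf0, hf⟩ := hneg
    intro htop
    have : f ∈ ho.valuationSubring := by rw [htop]; exact ValuationSubring.mem_top f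
    rcases this with h | h
    · exact hf0 h
    · omega
  isPrincipalIdealRing' := ho.isPrincipalIdealRing_valuationSubring

@[simp]
theorem place_toValuationSubring (hK : ∀ a : K, algebraMap K F a ≠ 0 → 0 ≤ o (algebraMap K F a))
    (hneg : ∃ f : F, f ≠ 0 ∧ o f < 0) :
    (ho.place hK hneg).toValuationSubring = ho.valuationSubring := rfl

end IsAddVal

/-! ### Places versus additive valuations -/

section Place

variable (v : Place K F)

/-- `Place.ord` is an additive valuation. -/
theorem isAddVal_ord : IsAddVal v.ord where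
  map_one := v.ord_one
  map_mul := fun hf hg => v.ord_mul hf hg
  map_add := by
    intro f g hf hg hfg
    -- multiplicative version: `v (f+g) ≤ max (v f) (v g)`
    have h := Valuation.map_add v.adicValuation f g
    have hf' := v.adicValuation_ne_zero hf
    have hg' := v.adicValuation_ne_zero hg
    have hfg' := v.adicValuation_ne_zero hfg
    simp only [Place.ord]
    rcases le_max_iff.mp h with h1 | h1
    · have := (WithZero.log_le_log hfg' hf').mpr h1
      exact le_trans (min_le_left _ _) (by omega)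
    · have := (WithZero.log_le_log hfg' hg').mpr h1
      exact le_trans (min_le_right _ _) (by omega)

theorem ord_nonneg_of_mem {f : F} (hf : f ∈ v.toValuationSubring) : 0 ≤ v.ord f := by
  have h : v.adicValuation f ≤ 1 := by
    have := v.adicValuation_coe ⟨f, hf⟩
    rw [show ((⟨f, hf⟩ : v.toValuationSubring) : F) = f from rfl] at this
    rw [this]
    exact IsDedekindDomain.HeightOneSpectrum.intValuation_le_one _ _
  by_cases hf0 : f = 0
  · simp [hf0]
  have h1 := (WithZero.log_le_log (v.adicValuation_ne_zero hf0) one_ne_zero).mpr h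
  simp only [Place.ord]
  simp only [WithZero.log_one] at h1
  omega

theorem mem_iff_ord_nonneg {f : F} (hf : f ≠ 0) : f ∈ v.toValuationSubring ↔ 0 ≤ v.ord f := by
  refine ⟨fun h => ord_nonneg_of_mem v h, fun h => ?_⟩
  rcases v.toValuationSubring.mem_or_inv_mem f with h1 | h1
  · exact h1
  · -- `f⁻¹ ∈ A` and `ord f⁻¹ = - ord f ≤ 0`, so `ord f = 0`, so `f` is a unit.
    have h2 := ord_nonneg_of_mem v h1
    rw [v.ord_inv] at h2
    have h0 : v.ord f = 0 := by omega
    obtain ⟨π, hπ⟩ := IsDiscreteValuationRing.exists_irreducible v.toValuationSubring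
    obtain ⟨u, hu⟩ := v.exists_unit_mul_zpow hf hπ
    rw [h0, zpow_zero, mul_one] at hu
    rw [hu]; exact (u : v.toValuationSubring).2

/-- If the valuation ring of the place `v` is the valuation ring of the additive valuation `o`,
then `o = e * v.ord` for some `e > 0`. -/
theorem exists_ord_eq_of_mem_iff {o : F → ℤ} (ho : IsAddVal o)
    (h : ∀ f : F, f ≠ 0 → (f ∈ v.toValuationSubring ↔ 0 ≤ o f)) :
    ∃ e : ℤ, 0 < e ∧ ∀ f : F, f ≠ 0 → o f = e * v.ord f := by
  obtain ⟨π, hπ⟩ := IsDiscreteValuationRing.exists_irreducible v.toValuationSubring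
  have hπ0 : (π : F) ≠ 0 := by
    simpa [ne_eq, ZeroMemClass.coe_eq_zero] using hπ.ne_zero
  have hunit : ∀ u : v.toValuationSubringˣ, o ((u : v.toValuationSubring) : F) = 0 := by
    intro u
    have hu0 : ((u : v.toValuationSubring) : F) ≠ 0 := by
      simp [ne_eq, ZeroMemClass.coe_eq_zero]
    have h1 := (h _ hu0).mp (u : v.toValuationSubring).2
    have hinv : (((u⁻¹ : v.toValuationSubringˣ) : v.toValuationSubring) : F)
        = ((u : v.toValuationSubring) : F)⁻¹ := by
      have : ((u : v.toValuationSubring) : F) * (((u⁻¹ : v.toValuationSubringˣ) :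
          v.toValuationSubring) : F) = 1 := by
        have h3 : (u : v.toValuationSubring) * ((u⁻¹ : v.toValuationSubringˣ) :
            v.toValuationSubring) = 1 := u.mul_inv
        have h4 := congrArg (Subtype.val) h3
        exact h4
      exact eq_inv_of_mul_eq_one_right this
    have h2 := (h _ (inv_ne_zero hu0)).mp (hinv ▸ ((u⁻¹ : v.toValuationSubringˣ) :
      v.toValuationSubring).2)
    rw [ho.map_inv hu0] at h2
    omega
  refine ⟨o (π : F), ?_, fun f hf => ?_⟩
  · have h1 := (h _ hπ0).mp π.2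
    rcases h1.lt_or_eq with h2 | h2
    · exact h2
    · exfalso
      -- then `π⁻¹ ∈ A`, so `π` is a unit
      have h3 : (π : F)⁻¹ ∈ v.toValuationSubring := by
        rw [h _ (inv_ne_zero hπ0), ho.map_inv hπ0]; omega
      apply hπ.not_isUnit
      refine IsUnit.of_mul_eq_one ⟨_, h3⟩ ?_
      ext
      show (π : F) * (π : F)⁻¹ = 1
      exact mul_inv_cancel₀ hπ0
  · obtain ⟨u, hu⟩ := v.exists_unit_mul_zpow hf hπ
    have hu0 : ((u : v.toValuationSubring) : F) ≠ 0 := by
      simp [ne_eq, ZeroMemClass.coe_eq_zero]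
    conv_lhs => rw [hu]
    rw [ho.map_mul hu0 (zpow_ne_zero _ hπ0), hunit u, ho.map_zpow hπ0]
    ring

/-- A place is a maximal proper valuation subring: if the additive valuation `o` is nontrivial
and nonnegative on the valuation ring of `v`, then the valuation ring of `v` is that of `o`. -/
theorem mem_iff_of_le {o : F → ℤ} (ho : IsAddVal o)
    (hle : ∀ f : F, f ≠ 0 → f ∈ v.toValuationSubring → 0 ≤ o f)
    (hnt : ∃ g : F, g ≠ 0 ∧ o g ≠ 0) :
    ∀ f : F, f ≠ 0 → (f ∈ v.toValuationSubring ↔ 0 ≤ o f) := by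
  intro f hf
  refine ⟨hle f hf, fun hof => ?_⟩
  by_contra hfA
  -- `f⁻¹` lies in the maximal ideal: `ord f < 0`
  have hordf : v.ord f < 0 := by
    by_contra hcon
    exact hfA ((mem_iff_ord_nonneg v hf).mpr (not_lt.mp hcon))
  have hfinv : f⁻¹ ∈ v.toValuationSubring :=
    (v.toValuationSubring.mem_or_inv_mem f).resolve_left hfA
  have h1 := hle _ (inv_ne_zero hf) hfinv
  rw [ho.map_inv hf] at h1
  have hof0 : o f = 0 := by omega
  -- a `g` with `o g < 0`
  obtain ⟨g, hg0, hg⟩ : ∃ g : F, g ≠ 0 ∧ o g < 0 := by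
    obtain ⟨g, hg0, hg⟩ := hnt
    rcases lt_or_gt_of_ne hg with h2 | h2
    · exact ⟨g, hg0, h2⟩
    · exact ⟨g⁻¹, inv_ne_zero hg0, by rw [ho.map_inv hg0]; omega⟩
  -- `g * f⁻¹ ^ k ∈ A` for `k` large
  set k : ℕ := (-(v.ord g)).toNat with hk
  have hgk0 : g * f⁻¹ ^ k ≠ 0 := mul_ne_zero hg0 (pow_ne_zero _ (inv_ne_zero hf))
  have hmem : g * f⁻¹ ^ k ∈ v.toValuationSubring := by
    rw [mem_iff_ord_nonneg v hgk0, v.ord_mul hg0 (pow_ne_zero _ (inv_ne_zero hf)),
      (isAddVal_ord v).map_pow (inv_ne_zero hf), v.ord_inv]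
    have hk' : -(v.ord g) ≤ (k : ℤ) := by rw [hk]; exact Int.self_le_toNat _
    nlinarith
  have h2 := hle _ hgk0 hmem
  rw [ho.map_mul hg0 (pow_ne_zero _ (inv_ne_zero hf)), ho.map_pow (inv_ne_zero hf),
    ho.map_inv hf, hof0] at h2
  simp at h2
  omega

/-- Combination: a nontrivial additive valuation which is nonnegative on the valuation ring of
the place `v` is a positive multiple of `v.ord`. -/
theorem exists_ord_eq_of_le {o : F → ℤ} (ho : IsAddVal o)
    (hle : ∀ f : F, f ≠ 0 → f ∈ v.toValuationSubring → 0 ≤ o f)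
    (hnt : ∃ g : F, g ≠ 0 ∧ o g ≠ 0) :
    ∃ e : ℤ, 0 < e ∧ ∀ f : F, f ≠ 0 → o f = e * v.ord f :=
  exists_ord_eq_of_mem_iff v ho (mem_iff_of_le v ho hle hnt)

end Place

/-! ### The place of an additive valuation and its `ord` -/

namespace IsAddVal

variable {o : F → ℤ} (ho : IsAddVal o)
include ho

/-- `o = e * ord` for the place attached to `o`. -/
theorem exists_place_ord_eq (hK : ∀ a : K, algebraMap K F a ≠ 0 → 0 ≤ o (algebraMap K F a))
    (hneg : ∃ f : F, f ≠ 0 ∧ o f < 0) :
    ∃ e : ℤ, 0 < e ∧ ∀ f : F, f ≠ 0 → o f = e * (ho.place hK hneg).ord f :=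
  exists_ord_eq_of_mem_iff (ho.place hK hneg) ho
    (fun _ hf => ho.mem_valuationSubring_iff_of_ne hf)

/-- If moreover some element has valuation `1`, then `o` is exactly `ord`. -/
theorem place_ord_eq (hK : ∀ a : K, algebraMap K F a ≠ 0 → 0 ≤ o (algebraMap K F a))
    (hneg : ∃ f : F, f ≠ 0 ∧ o f < 0) (hone : ∃ t : F, t ≠ 0 ∧ o t = 1) :
    ∀ f : F, f ≠ 0 → (ho.place hK hneg).ord f = o f := by
  obtain ⟨e, he, h⟩ := ho.exists_place_ord_eq hK hneg
  obtain ⟨t, ht0, ht⟩ := hone
  have h1 := h t ht0
  rw [ht] at h1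
  have he1 : e = 1 := by
    have hdvd : e ∣ 1 := ⟨_, h1⟩
    exact Int.eq_one_of_dvd_one he.le hdvd
  intro f hf
  rw [h f hf, he1, one_mul]

end IsAddVal

/-! ### Laurent series -/

section Laurent

variable {L : Type*} [Field L]

/-- The order of the image under a ring homomorphism into Laurent series (more generally, Hahn
series over `ℤ`) is an additive valuation. -/
theorem isAddVal_order (φ : F →+* LaurentSeries L) : IsAddVal (fun f => (φ f).order) where
  map_one := by simp
  map_mul := fun {f g} hf hg => by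
    simp only [map_mul]
    exact HahnSeries.order_mul ((map_ne_zero φ).mpr hf) ((map_ne_zero φ).mpr hg)
  map_add := fun {f g} _ _ hfg => by
    simp only [map_add]
    exact HahnSeries.min_order_le_order_add (by rw [← map_add]; exact (map_ne_zero φ).mpr hfg)

/-- A place `v` whose valuation ring is contained in `{f | 0 ≤ order (φ f)}` for a ring
homomorphism `φ : F →+* L((u))` with non-constant image is `(order ∘ φ) / e`. -/
theorem exists_order_eq_of_le (v : Place K F) (φ : F →+* LaurentSeries L)
    (hle : ∀ f : F, f ≠ 0 → f ∈ v.toValuationSubring → 0 ≤ (φ f).order)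
    (hnt : ∃ g : F, g ≠ 0 ∧ (φ g).order ≠ 0) :
    ∃ e : ℤ, 0 < e ∧ ∀ f : F, f ≠ 0 → (φ f).order = e * v.ord f :=
  exists_ord_eq_of_le v (isAddVal_order φ) hle hnt

/-- The place `{f | 0 ≤ order (φ f)}` of a ring homomorphism `φ : F →+* L((u))` which maps `K`
to series of order `0` and has non-constant image. -/
noncomputable def laurentPlace (φ : F →+* LaurentSeries L)
    (hK : ∀ a : K, algebraMap K F a ≠ 0 → 0 ≤ (φ (algebraMap K F a)).order)
    (hneg : ∃ f : F, f ≠ 0 ∧ (φ f).order < 0) : Place K F :=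
  (isAddVal_order φ).place hK hneg

theorem mem_laurentPlace_iff (φ : F →+* LaurentSeries L)
    (hK : ∀ a : K, algebraMap K F a ≠ 0 → 0 ≤ (φ (algebraMap K F a)).order)
    (hneg : ∃ f : F, f ≠ 0 ∧ (φ f).order < 0) (f : F) :
    f ∈ (laurentPlace φ hK hneg).toValuationSubring ↔ 0 ≤ (φ f).order := by
  show f = 0 ∨ 0 ≤ (φ f).order ↔ _
  constructor
  · rintro (rfl | h)
    · simp
    · exact h
  · exact Or.inr

theorem exists_laurentPlace_ord_eq (φ : F →+* LaurentSeries L)
    (hK : ∀ a : K, algebraMap K F a ≠ 0 → 0 ≤ (φ (algebraMap K F a)).order)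
    (hneg : ∃ f : F, f ≠ 0 ∧ (φ f).order < 0) :
    ∃ e : ℤ, 0 < e ∧ ∀ f : F, f ≠ 0 → (φ f).order = e * (laurentPlace φ hK hneg).ord f :=
  (isAddVal_order φ).exists_place_ord_eq hK hneg

end Laurent

end Fermat.Agent.S24.H52
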