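/-
S24 helper (helper52): more lemmas on additive valuations `IsAddVal` (sums with a unique term of
minimal order, products, polynomials in an element of positive valuation).
-/
import Fermat.Agent.S24.H52.AddVal

set_option autoImplicit false

namespace Fermat.Agent.S24.H52

open AlgebraicCurve

variable {K F : Type*} [Field K] [Field F] [Algebra K F]

namespace IsAddVal

variable {o : F → ℤ} (ho : IsAddVal o)
include ho

theorem map_add_eq_of_lt {f g : F} (hf : f ≠ 0) (h : g = 0 ∨ o f < o g) :
    f + g ≠ 0 ∧ o (f + g) = o f := by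
  by_cases hg : g = 0
  · subst hg; simpa using hf
  have h := h.resolve_left hg
  have hfg : f + g ≠ 0 := by
    intro h0
    have : g = -f := by linear_combination h0
    rw [this, ho.map_neg f hf] at h
    exact lt_irrefl _ h
  refine ⟨hfg, le_antisymm ?_ ?_⟩
  · -- `f = (f + g) + (-g)`
    have h1 := ho.map_add hfg (neg_ne_zero.mpr hg) (by simpa using hf)
    rw [add_neg_cancel_right, ho.map_neg g hg] at h1
    rcases min_le_iff.mp h1 with h2 | h2
    · exact h2
    · omega
  · have h1 := ho.map_add hf hg hfg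
    rw [min_eq_left h.le] at h1
    exact h1

theorem map_prod {ι : Type*} (s : Finset ι) (f : ι → F) (hf : ∀ i ∈ s, f i ≠ 0) :
    o (∏ i ∈ s, f i) = ∑ i ∈ s, o (f i) := by
  classical
  induction s using Finset.induction_on with
  | empty => simp [ho.map_one]
  | insert a s ha ih =>
    rw [Finset.prod_insert ha, Finset.sum_insert ha,
      ho.map_mul (hf a (Finset.mem_insert_self a s))
        (Finset.prod_ne_zero_iff.mpr fun i hi => hf i (Finset.mem_insert_of_mem hi)),
      ih fun i hi => hf i (Finset.mem_insert_of_mem hi)]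

/-- If all nonzero terms of a finite sum are `≥ m` then so is the sum (if nonzero). -/
theorem map_sum_ge {ι : Type*} (s : Finset ι) (f : ι → F) (m : ℤ)
    (h : ∀ i ∈ s, f i ≠ 0 → m ≤ o (f i)) (hs : ∑ i ∈ s, f i ≠ 0) :
    m ≤ o (∑ i ∈ s, f i) := by
  classical
  induction s using Finset.induction_on with
  | empty => simp at hs
  | insert a s ha ih =>
    rw [Finset.sum_insert ha] at hs ⊢
    by_cases h1 : f a = 0
    · rw [h1, zero_add] at hs ⊢
      exact ih (fun i hi => h i (Finset.mem_insert_of_mem hi)) hs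
    by_cases h2 : ∑ i ∈ s, f i = 0
    · rw [h2, add_zero]
      exact h a (Finset.mem_insert_self a s) h1
    have h3 := ho.map_add h1 h2 hs
    have h4 := h a (Finset.mem_insert_self a s) h1
    have h5 := ih (fun i hi => h i (Finset.mem_insert_of_mem hi)) h2
    exact le_trans (le_min h4 h5) h3

/-- A finite sum with a unique term of minimal order is nonzero, of that order. -/
theorem map_sum_of_unique_min {ι : Type*} (s : Finset ι) (f : ι → F) {i₀ : ι} (hi₀ : i₀ ∈ s)
    (h0 : f i₀ ≠ 0) (h : ∀ i ∈ s, i ≠ i₀ → f i = 0 ∨ o (f i₀) < o (f i)) :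
    ∑ i ∈ s, f i ≠ 0 ∧ o (∑ i ∈ s, f i) = o (f i₀) := by
  classical
  rw [← Finset.add_sum_erase s f hi₀]
  refine ho.map_add_eq_of_lt h0 ?_
  by_cases hz : ∑ i ∈ s.erase i₀, f i = 0
  · exact Or.inl hz
  right
  have := ho.map_sum_ge (s.erase i₀) f (o (f i₀) + 1) (fun i hi hfi => by
    have hi' := Finset.mem_erase.mp hi
    have := (h i hi'.2 hi'.1).resolve_left hfi
    omega) hz
  omega

/-- Polynomials in an element `π` of nonnegative valuation, with coefficients of valuation `≥ 0`,
have nonnegative valuation. -/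
theorem map_aeval_nonneg (hK : ∀ a : K, algebraMap K F a ≠ 0 → o (algebraMap K F a) = 0)
    {π : F} (hπ : 0 ≤ o π) (p : Polynomial K) (hp : Polynomial.aeval π p ≠ 0) :
    0 ≤ o (Polynomial.aeval π p) := by
  have hmem : Polynomial.aeval π p ∈ ho.valuationSubring := by
    rw [Polynomial.aeval_eq_sum_range]
    refine Subring.sum_mem _ fun i _ => ?_
    rw [Algebra.smul_def]
    refine Subring.mul_mem _ ?_ (Subring.pow_mem _ (Or.inr hπ) _)
    by_cases h : algebraMap K F (p.coeff i) = 0
    · exact Or.inl h
    · exact Or.inr (hK _ h).ge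
  exact hmem.resolve_left hp

/-- For a polynomial `p ≠ 0` over `K` and `π` of positive valuation: `p(π) ≠ 0` and the valuation
of `p(π)` is the multiplicity of the root `0` of `p` times the valuation of `π`. -/
theorem map_aeval (hK : ∀ a : K, algebraMap K F a ≠ 0 → o (algebraMap K F a) = 0)
    {π : F} (hπ : 0 < o π) (hπ0 : π ≠ 0) {p : Polynomial K} (hp : p ≠ 0) :
    Polynomial.aeval π p ≠ 0 ∧ o (Polynomial.aeval π p) = (p.rootMultiplicity 0 : ℤ) * o π := by
  obtain ⟨q, hq, hdvd⟩ := Polynomial.exists_eq_pow_rootMultiplicity_mul_and_not_dvd p hp 0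
  rw [Polynomial.C_0, sub_zero] at hq hdvd
  have hq0 : q.coeff 0 ≠ 0 := fun h => hdvd (Polynomial.X_dvd_iff.mpr h)
  have hc : algebraMap K F (q.coeff 0) ≠ 0 := by simpa using hq0
  -- `q(π) = q(0) + π * (q.divX)(π)`
  have hqe : Polynomial.aeval π q
      = algebraMap K F (q.coeff 0) + π * Polynomial.aeval π q.divX := by
    have h1 := congrArg (Polynomial.aeval π) (Polynomial.divX_mul_X_add q)
    rw [_root_.map_add, _root_.map_mul, Polynomial.aeval_X, Polynomial.aeval_C] at h1
    rw [← h1]; ring
  have key : Polynomial.aeval π q ≠ 0 ∧ o (Polynomial.aeval π q) = 0 := by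
    rw [hqe]
    have := ho.map_add_eq_of_lt (f := algebraMap K F (q.coeff 0))
      (g := π * Polynomial.aeval π q.divX) hc (by
        by_cases hz : Polynomial.aeval π q.divX = 0
        · left; rw [hz, mul_zero]
        · right
          rw [hK _ hc, ho.map_mul hπ0 hz]
          have := ho.map_aeval_nonneg hK hπ.le q.divX hz
          omega)
    rwa [hK _ hc] at this
  have hpe : Polynomial.aeval π p = π ^ (p.rootMultiplicity 0) * Polynomial.aeval π q := by
    conv_lhs => rw [hq]
    simp
  rw [hpe]
  refine ⟨mul_ne_zero (pow_ne_zero _ hπ0) key.1, ?_⟩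
  rw [ho.map_mul (pow_ne_zero _ hπ0) key.1, ho.map_pow hπ0, key.2, add_zero]

end IsAddVal

end Fermat.Agent.S24.H52
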